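import Mathlib
import Fermat.Agent.S48.H308.AutExtend

/-!
# Conjugating characters with values in `ℂ` (helper584, S35 piece (X), algebra)

`exists_ringEquiv_comp_eq` : if `χ₀ χ : A →+* ℂ` are ring homomorphisms with `ker χ₀ ≤ ker χ`
and `χ₀` takes values integral over `ℤ`, then `χ = σ ∘ χ₀` for a ring automorphism `σ` of `ℂ`.
-/

set_option autoImplicit false
set_option linter.style.haveILetI false

namespace Fermat.Agent.S35.H584

/-- Two characters `χ₀, χ : A → ℂ` with `ker χ₀ ≤ ker χ`, `χ₀` integral-valued, are conjugate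
under a ring automorphism of `ℂ`. -/
theorem exists_ringEquiv_comp_eq {A : Type*} [CommRing A] (χ₀ χ : A →+* ℂ)
    (hint : ∀ a, IsIntegral ℤ (χ₀ a)) (hker : RingHom.ker χ₀ ≤ RingHom.ker χ) :
    ∃ σ : ℂ ≃+* ℂ, ∀ a, σ (χ₀ a) = χ a := by
  classical
  haveI hprime : (RingHom.ker χ₀).IsPrime := RingHom.ker_isPrime χ₀
  -- the two embeddings of `D = A / ker χ₀`
  let ι₀ : A ⧸ RingHom.ker χ₀ →+* ℂ := RingHom.kerLift χ₀
  have hι₀ : Function.Injective ι₀ := RingHom.kerLift_injective χ₀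
  let ι : A ⧸ RingHom.ker χ₀ →+* ℂ := Ideal.Quotient.lift (RingHom.ker χ₀) χ (fun a ha => hker ha)
  have hι₀mk : ∀ a, ι₀ (Ideal.Quotient.mk (RingHom.ker χ₀) a) = χ₀ a :=
    fun a => RingHom.kerLift_mk χ₀ a
  have hιmk : ∀ a, ι (Ideal.Quotient.mk (RingHom.ker χ₀) a) = χ a :=
    fun a => Ideal.Quotient.lift_mk (RingHom.ker χ₀) χ _
  -- `D` is integral over `ℤ`
  haveI hDint : Algebra.IsIntegral ℤ (A ⧸ RingHom.ker χ₀) := by
    constructor
    intro d
    obtain ⟨a, rfl⟩ := Ideal.Quotient.mk_surjective d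
    have h1 : IsIntegral ℤ (ι₀.toIntAlgHom (Ideal.Quotient.mk (RingHom.ker χ₀) a)) := by
      change IsIntegral ℤ (ι₀ (Ideal.Quotient.mk (RingHom.ker χ₀) a))
      rw [hι₀mk]
      exact hint a
    exact (isIntegral_algHom_iff ι₀.toIntAlgHom hι₀).mp h1
  -- `ι` is injective
  have hι : Function.Injective ι := by
    rw [RingHom.injective_iff_ker_eq_bot]
    apply Ideal.eq_bot_of_comap_eq_bot (R := ℤ)
    ext n
    simp only [Ideal.mem_comap, RingHom.mem_ker, Ideal.mem_bot, eq_intCast,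
      map_intCast, Int.cast_eq_zero]
  -- values of `χ₀` are algebraic numbers
  have halg : ∀ d, ι₀ d ∈ algebraicClosure ℚ ℂ := by
    intro d
    obtain ⟨a, rfl⟩ := Ideal.Quotient.mk_surjective d
    rw [hι₀mk, mem_algebraicClosure_iff]
    exact ((hint a).tower_top (A := ℚ)).isAlgebraic
  let j₀ : A ⧸ RingHom.ker χ₀ →+* algebraicClosure ℚ ℂ :=
    ι₀.codRestrict (algebraicClosure ℚ ℂ) halg
  have hj₀ : Function.Injective j₀ := by
    intro x y hxy
    apply hι₀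
    exact congrArg (fun z : algebraicClosure ℚ ℂ => (z : ℂ)) hxy
  letI algDQ : Algebra (A ⧸ RingHom.ker χ₀) (algebraicClosure ℚ ℂ) := j₀.toAlgebra
  letI algDC : Algebra (A ⧸ RingHom.ker χ₀) ℂ := ι.toAlgebra
  haveI : Module.IsTorsionFree (A ⧸ RingHom.ker χ₀) (algebraicClosure ℚ ℂ) :=
    Module.isTorsionFree_iff_algebraMap_injective.mpr hj₀
  haveI : Module.IsTorsionFree (A ⧸ RingHom.ker χ₀) ℂ :=
    Module.isTorsionFree_iff_algebraMap_injective.mpr hι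
  haveI hcl : IsAlgClosure ℚ (algebraicClosure ℚ ℂ) := algebraicClosure.isAlgClosure ℚ ℂ
  haveI : Algebra.IsAlgebraic ℚ (algebraicClosure ℚ ℂ) := hcl.isAlgebraic
  haveI : Algebra.IsAlgebraic (A ⧸ RingHom.ker χ₀) (algebraicClosure ℚ ℂ) := by
    constructor
    intro y
    have h1 : IsAlgebraic ℚ y := Algebra.IsAlgebraic.isAlgebraic y
    have h2 : IsAlgebraic ℤ y := (IsFractionRing.isAlgebraic_iff ℤ ℚ _).mpr h1
    exact h2.extendScalars (R := ℤ) (S := A ⧸ RingHom.ker χ₀)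
      (by
        intro m n hmn
        have := congrArg ι₀ hmn
        simpa using this)
  let τ₀ : algebraicClosure ℚ ℂ →ₐ[A ⧸ RingHom.ker χ₀] ℂ := IsAlgClosed.lift
  have hτ₀ : ∀ d, τ₀ (j₀ d) = ι d := fun d => τ₀.commutes d
  let τ : algebraicClosure ℚ ℂ →ₐ[ℚ] ℂ := (τ₀ : algebraicClosure ℚ ℂ →+* ℂ).toRatAlgHom
  obtain ⟨σ, hσ⟩ := Fermat.Agent.S48.H308.exists_ringEquiv_extending (algebraicClosure ℚ ℂ) τ
  refine ⟨σ, fun a => ?_⟩
  have h1 := hσ (j₀ (Ideal.Quotient.mk (RingHom.ker χ₀) a))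
  have h2 : ((j₀ (Ideal.Quotient.mk (RingHom.ker χ₀) a) : algebraicClosure ℚ ℂ) : ℂ) = χ₀ a :=
    hι₀mk a
  rw [h2] at h1
  rw [h1]
  change τ₀ (j₀ (Ideal.Quotient.mk (RingHom.ker χ₀) a)) = χ a
  rw [hτ₀, hιmk]

end Fermat.Agent.S35.H584
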