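import Fermat.Agent.S35.H584.AutOfChars
import Fermat.Agent.Lib.Newform.H958.X.Final
import Fermat.Agent.Lib.Newform.H863.GoodEigen
import Fermat.Agent.Lib.Ribet.H584.DeligneSerre
import Fermat.Agent.S23.Cap.Galois
import Fermat.Agent.S49.LinAlg
import Fermat.Prelude.Def_CuspForm_HeckeEvalForms

/-!
# S35 piece (X), forms side: exclusion polynomial for a newform (helper584)

Let `g` be a Prelude-newform of level `N`, `M'` a proper divisor of `N`, and `S` a finite set of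
primes containing the primes dividing `M'`.  Then there is a polynomial `t` in the Hecke variables
`X_ℓ`, `ℓ ∉ S`, with integer coefficients, which

* kills `S₂(Γ₀(M'))` (`heckeEvalForms M' 2 t = 0`), and
* does not kill `g`: `t(a_ℓ(g)) ≠ 0`.

Proof.  Otherwise the eigencharacter of `g` (restricted to the variables outside `S`) contains the
annihilator of `S₂(Γ₀(M'))`; by the linear algebra lemma of S49 there is an eigenvector of level
`M'` whose eigencharacter `χ₀` has kernel inside the kernel of the character `χ` of `g`; both take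
integral values, so `χ = σ ∘ χ₀` for an automorphism `σ` of `ℂ` (`exists_ringEquiv_comp_eq`); the
`σ`-conjugate (S23, Galois stability of `q`-expansions) of the normalised eigenform attached to the
eigenvector (NEWFORM/H863) is a normalised eigenform of level `M'` with the eigenvalues of `g`
outside `S`; cross-level strong multiplicity one (NEWFORM block X) gives `N ∣ M'`, absurd.

* `exists_conj_eigenform` : Galois conjugate of a normalised eigenform.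
* `exists_excl_poly` : the exclusion polynomial.
* `exists_excl_poly_div` : the case `M' = N / q` used by S35 / S36.
-/

set_option autoImplicit false
set_option linter.style.haveILetI false

open CuspForm CongruenceSubgroup ModularFormClass

namespace Fermat.Agent.S35.H584

/-- The `σ`-conjugate of a normalised eigenform of weight 2 and level `Γ₀(M)`. -/
theorem exists_conj_eigenform {M : ℕ} [NeZero M] (σ : ℂ →+* ℂ)
    {f : CuspForm (Gamma0 M) 2} (hf : f.IsNormalizedEigenform) :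
    ∃ f' : CuspForm (Gamma0 M) 2, f'.IsNormalizedEigenform ∧
      ∀ n : ℕ, qCoeff f' n = σ (qCoeff f n) := by
  obtain ⟨g, ⟨f', hf'⟩, hq⟩ := Fermat.Agent.S23.Cap.galois_stable M 2 σ f ⟨f, rfl⟩
  have hcoeff : ∀ n : ℕ, qCoeff (f' : CuspForm (Gamma0 M) 2) n = σ (qCoeff f n) := by
    intro n
    have h1 : qCoeff (f' : CuspForm (Gamma0 M) 2) n = (Fermat.Agent.S23.Cap.qx g).coeff n := by
      rw [← hf']
      rfl
    rw [h1, hq, PowerSeries.coeff_map]
    rfl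
  refine ⟨f', ⟨?_, ?_, ?_, ?_⟩, hcoeff⟩
  · rw [hcoeff, hf.qCoeff_one, map_one]
  · intro m n hmn
    rw [hcoeff, hcoeff, hcoeff, hf.qCoeff_mul_of_coprime m n hmn, map_mul]
  · intro p r hp hpM
    rw [hcoeff, hcoeff, hcoeff, hcoeff, hf.qCoeff_prime_pow_of_not_dvd p r hp hpM, map_sub,
      map_mul, map_mul, map_natCast]
  · intro p r hp hpM
    rw [hcoeff, hcoeff, hcoeff, hf.qCoeff_prime_pow_of_dvd p r hp hpM, map_mul]

/-- **Exclusion polynomial.**  A newform `g` of level `N` is separated from the cusp forms of any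
proper divisor level `M'` by a Hecke polynomial in the variables outside any finite set `S` of
primes containing the primes dividing `M'`. -/
theorem exists_excl_poly {N : ℕ} [NeZero N] {g : CuspForm (Gamma0 N) 2} (hg : g.IsNewform)
    {M' : ℕ} [NeZero M'] (hM' : M' ∣ N) (hne : M' ≠ N) (S : Finset ℕ)
    (hS : ∀ ℓ : ℕ, ℓ.Prime → ℓ ∣ M' → ℓ ∈ S) :
    ∃ t : ModularCurve.HeckeAlg,
      t ∈ MvPolynomial.supported ℤ {ℓ : Nat.Primes | (ℓ : ℕ) ∉ S} ∧
      CuspForm.heckeEvalForms M' 2 t = 0 ∧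
      MvPolynomial.aeval (fun ℓ : Nat.Primes => qCoeff g ℓ) t ≠ 0 := by
  classical
  by_contra hcon
  push Not at hcon
  have hfd := Fermat.Agent.Lib.Newform.H863.finiteDimensional_cuspForm M'
  -- the polynomial ring in the variables outside `S`
  let ren : MvPolynomial {ℓ : Nat.Primes | (ℓ : ℕ) ∉ S} ℤ →ₐ[ℤ] ModularCurve.HeckeAlg :=
    MvPolynomial.rename (Subtype.val)
  have hren : ∀ s, ren s ∈ MvPolynomial.supported ℤ {ℓ : Nat.Primes | (ℓ : ℕ) ∉ S} := by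
    intro s
    rw [MvPolynomial.supported_eq_range_rename]
    exact ⟨s, rfl⟩
  let ρ : MvPolynomial {ℓ : Nat.Primes | (ℓ : ℕ) ∉ S} ℤ →+*
      Module.End ℂ (CuspForm (Gamma0 M') 2) :=
    ((heckeAlgebra M' 2 (∅ : Set ℕ)).val.toRingHom.comp (CuspForm.heckeEvalForms M' 2)).comp
      ren.toRingHom
  let χ : MvPolynomial {ℓ : Nat.Primes | (ℓ : ℕ) ∉ S} ℤ →+* ℂ :=
    ((MvPolynomial.aeval (fun ℓ : Nat.Primes => qCoeff g ℓ) :
      ModularCurve.HeckeAlg →ₐ[ℤ] ℂ).toRingHom).comp ren.toRingHom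
  haveI h𝔫 : (RingHom.ker χ).IsPrime := RingHom.ker_isPrime χ
  have hρ : RingHom.ker ρ ≤ RingHom.ker χ := by
    intro s hs
    rw [RingHom.mem_ker] at hs ⊢
    have h0 : CuspForm.heckeEvalForms M' 2 (ren s) = 0 := by
      apply Subtype.val_injective
      exact hs
    exact hcon (ren s) (hren s) h0
  obtain ⟨h, χ₀, hh, heig, hker⟩ := Fermat.Agent.S49.exists_eigenvector_ker_le' ρ (RingHom.ker χ) hρ
  -- the eigenvalues at the primes outside `S`
  set lam : ℕ → ℂ := fun ℓ =>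
    if hℓ : ℓ.Prime ∧ ℓ ∉ S then χ₀ (MvPolynomial.X ⟨⟨ℓ, hℓ.1⟩, hℓ.2⟩) else 0 with hlam
  have hlam' : ∀ (ℓ : ℕ) (hℓ : ℓ.Prime) (hℓS : ℓ ∉ S),
      lam ℓ = χ₀ (MvPolynomial.X ⟨⟨ℓ, hℓ⟩, hℓS⟩) := by
    intro ℓ hℓ hℓS
    simp only [hlam]
    rw [dif_pos ⟨hℓ, hℓS⟩]
  have hρX : ∀ (ℓ : ℕ) (hℓ : ℓ.Prime) (hℓM : ¬ ℓ ∣ M') (hℓS : ℓ ∉ S),
      ρ (MvPolynomial.X ⟨⟨ℓ, hℓ⟩, hℓS⟩) = CuspForm.heckeTLin 2 hℓ hℓM := by
    intro ℓ hℓ hℓM hℓS
    have h1 : ren (MvPolynomial.X ⟨⟨ℓ, hℓ⟩, hℓS⟩) = ModularCurve.heckeGen ⟨ℓ, hℓ⟩ :=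
      MvPolynomial.rename_X _ _
    change ((CuspForm.heckeEvalForms M' 2 (ren (MvPolynomial.X ⟨⟨ℓ, hℓ⟩, hℓS⟩)) :
      heckeAlgebra M' 2 (∅ : Set ℕ)) : Module.End ℂ (CuspForm (Gamma0 M') 2)) = _
    rw [h1, CuspForm.heckeEvalForms_heckeGen_of_not_dvd (N := M') (k := 2)
      (ℓ := ⟨ℓ, hℓ⟩) hℓM]
    rfl
  have heig' : ∀ (ℓ : ℕ) (hℓ : ℓ.Prime) (hℓM : ¬ ℓ ∣ M'), ℓ ∉ (S : Set ℕ) →
      CuspForm.heckeTLin 2 hℓ hℓM h = lam ℓ • h := by
    intro ℓ hℓ hℓM hℓS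
    have hℓS' : ℓ ∉ S := fun hmem => hℓS (Finset.mem_coe.mpr hmem)
    rw [hlam' ℓ hℓ hℓS', ← heig, hρX ℓ hℓ hℓM hℓS']
  obtain ⟨f, hf, hfl⟩ :=
    Fermat.Agent.Lib.Newform.H863.exists_normalizedEigenform_of_eigenvector (S : Set ℕ) lam h hh
      heig'
  -- the eigencharacter takes integral values
  have hint : ∀ s, IsIntegral ℤ (χ₀ s) := by
    intro s
    obtain ⟨P, hPm, hP⟩ := Fermat.Agent.Lib.Ribet.H584.isIntegral_heckeAlgebra (N := M')
      (∅ : Set ℕ) (CuspForm.heckeEvalForms M' 2 (ren s))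
    refine ⟨P, hPm, ?_⟩
    -- `P (ρ s) = 0`
    have h1 : Polynomial.aeval (ρ s) P = 0 := by
      have h2 : Polynomial.aeval (CuspForm.heckeEvalForms M' 2 (ren s)) P = 0 := by
        rw [Polynomial.aeval_def]
        exact hP
      have h3 := congrArg (heckeAlgebra M' 2 (∅ : Set ℕ)).val h2
      rw [← Polynomial.aeval_algHom_apply, map_zero] at h3
      exact h3
    -- `P (ρ s) h = P (χ₀ s) • h`
    have h4 : Polynomial.aeval (ρ s) P = ρ (Polynomial.aeval s P) := by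
      have := Polynomial.aeval_algHom_apply ρ.toIntAlgHom s P
      exact this
    have h5 : Polynomial.aeval (χ₀ s) P = χ₀ (Polynomial.aeval s P) := by
      have := Polynomial.aeval_algHom_apply χ₀.toIntAlgHom s P
      exact this
    have h6 : Polynomial.aeval (χ₀ s) P • h = 0 := by
      rw [h5, ← heig, ← h4, h1]
      rfl
    have h7 : Polynomial.aeval (χ₀ s) P = 0 := by
      rcases smul_eq_zero.mp h6 with h8 | h8
      · exact h8
      · exact absurd h8 hh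
    rw [← Polynomial.aeval_def]
    exact h7
  obtain ⟨σ, hσ⟩ := exists_ringEquiv_comp_eq χ₀ χ hint hker
  obtain ⟨f', hf', hq⟩ := exists_conj_eigenform (σ : ℂ →+* ℂ) hf
  -- `f'` has the eigenvalues of `g` outside `S`
  have hagree : ∀ ℓ : ℕ, ℓ.Prime → ℓ ∉ S → qCoeff g ℓ = qCoeff f' ℓ := by
    intro ℓ hℓ hℓS
    have hℓM : ¬ ℓ ∣ M' := fun hdvd => hℓS (hS ℓ hℓ hdvd)
    rw [hq, hfl ℓ hℓ hℓM (fun hmem => hℓS (Finset.mem_coe.mp hmem)), hlam' ℓ hℓ hℓS]
    have h1 := hσ (MvPolynomial.X ⟨⟨ℓ, hℓ⟩, hℓS⟩)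
    have h2 : χ (MvPolynomial.X ⟨⟨ℓ, hℓ⟩, hℓS⟩) = qCoeff g ℓ := by
      change MvPolynomial.aeval (fun ℓ : Nat.Primes => qCoeff g ℓ)
        (ren (MvPolynomial.X ⟨⟨ℓ, hℓ⟩, hℓS⟩)) = _
      have h3 : ren (MvPolynomial.X ⟨⟨ℓ, hℓ⟩, hℓS⟩) = MvPolynomial.X ⟨ℓ, hℓ⟩ :=
        MvPolynomial.rename_X _ _
      rw [h3]
      exact MvPolynomial.aeval_X (fun ℓ : Nat.Primes => qCoeff g ℓ) ⟨ℓ, hℓ⟩
    rw [← h2, ← h1]
    rfl
  have hdvd : N ∣ M' :=
    Fermat.Agent.Lib.Newform.H958.X.crossLevel N M' g f' hg hf' S hagree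
  exact hne (Nat.dvd_antisymm hM' hdvd)

/-- The case `M' = N / q`, `q ∣ N` prime, `S ⊇ primes of N` (shape used by S35 and S36). -/
theorem exists_excl_poly_div {N : ℕ} [NeZero N] {g : CuspForm (Gamma0 N) 2} (hg : g.IsNewform)
    {q : ℕ} (hq : q.Prime) (hqN : q ∣ N) [NeZero (N / q)] (S : Finset ℕ)
    (hS : ∀ ℓ : ℕ, ℓ.Prime → ℓ ∣ N → ℓ ∈ S) :
    ∃ t : ModularCurve.HeckeAlg,
      t ∈ MvPolynomial.supported ℤ {ℓ : Nat.Primes | (ℓ : ℕ) ∉ S} ∧
      CuspForm.heckeEvalForms (N / q) 2 t = 0 ∧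
      MvPolynomial.aeval (fun ℓ : Nat.Primes => qCoeff g ℓ) t ≠ 0 :=
  exists_excl_poly hg (Nat.div_dvd_of_dvd hqN)
    (Nat.div_lt_self (Nat.pos_of_ne_zero (NeZero.ne N)) hq.one_lt).ne S
    (fun ℓ hℓ hdvd => hS ℓ hℓ (hdvd.trans (Nat.div_dvd_of_dvd hqN)))

end Fermat.Agent.S35.H584
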